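/-
S48 wall (W), block G-23, part GLUE (helper55): `2 × 2` matrix lemmas (Mathlib only).

* `glue_nil_mul_nil`     : `m, n` nilpotent (`tr = det = 0`), `tr (m n) = 0` ⟹ `m n = 0`;
* `glue_unip_mul`        : `u, h` unipotent (`tr = 2`, `det = 1`), `tr (u h) = 2` ⟹ `(u - 1)(h - 1) = 0`;
* `glue_ker_line`        : the kernel of a nonzero singular matrix is a line;
* `glue_eigen_quadratic` : an eigenvalue is a root of `X² - tr X + det`;
* `glue_trace_det_pow`   : trace and determinant of `g ^ j` are determined by those of `g`.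
-/
import Mathlib

set_option autoImplicit false

namespace Fermat.Agent.S48WGlue

open Matrix

variable {k : Type*} [Field k]

/-- nilpotent `2 × 2` matrices `m, n` with `tr (m n) = 0` have product `0`. -/
theorem glue_nil_mul_nil (m n : Matrix (Fin 2) (Fin 2) k)
    (hm1 : m.trace = 0) (hm2 : m.det = 0) (hn1 : n.trace = 0) (hn2 : n.det = 0)
    (hmn : (m * n).trace = 0) : m * n = 0 := by
  rw [Matrix.trace_fin_two] at hm1 hn1 hmn
  rw [Matrix.det_fin_two] at hm2 hn2
  simp only [Matrix.mul_apply, Fin.sum_univ_two] at hmn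
  have hd : m 1 1 = - m 0 0 := by linear_combination hm1
  have hs : n 1 1 = - n 0 0 := by linear_combination hn1
  rw [hd] at hm2 hmn
  rw [hs] at hn2 hmn
  have h00 : (m 0 0 * n 0 0 + m 0 1 * n 1 0) ^ 2 = 0 := by
    linear_combination (m 0 1 * n 1 0) * hmn - (n 0 0 * n 0 0) * hm2 + (m 0 1 * m 1 0) * hn2
  have h01 : (m 0 0 * n 0 1 + m 0 1 * (- n 0 0)) ^ 2 = 0 := by
    linear_combination (-(m 0 1 * n 0 1)) * hmn - (n 0 1 * n 0 1) * hm2 - (m 0 1 * m 0 1) * hn2
  have h10 : (m 1 0 * n 0 0 + (- m 0 0) * n 1 0) ^ 2 = 0 := by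
    linear_combination (-(m 1 0 * n 1 0)) * hmn - (m 1 0 * m 1 0) * hn2 - (n 1 0 * n 1 0) * hm2
  have h11 : (m 1 0 * n 0 1 + (- m 0 0) * (- n 0 0)) ^ 2 = 0 := by
    linear_combination (m 1 0 * n 0 1) * hmn - (n 0 0 * n 0 0) * hm2 + (m 0 1 * m 1 0) * hn2
  have e00 := pow_eq_zero_iff (two_ne_zero) |>.mp h00
  have e01 := pow_eq_zero_iff (two_ne_zero) |>.mp h01
  have e10 := pow_eq_zero_iff (two_ne_zero) |>.mp h10
  have e11 := pow_eq_zero_iff (two_ne_zero) |>.mp h11
  ext i j
  fin_cases i <;> fin_cases j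
  · simpa [Matrix.mul_apply, Fin.sum_univ_two] using e00
  · simpa [Matrix.mul_apply, Fin.sum_univ_two, hs] using e01
  · simpa [Matrix.mul_apply, Fin.sum_univ_two, hd] using e10
  · simpa [Matrix.mul_apply, Fin.sum_univ_two, hd, hs] using e11

/-- `u` unipotent (`tr = 2`, `det = 1`) ⟹ `u - 1` has trace and determinant `0`. -/
theorem glue_unip_sub_one (u : Matrix (Fin 2) (Fin 2) k) (h1 : u.trace = 2) (h2 : u.det = 1) :
    (u - 1).trace = 0 ∧ (u - 1).det = 0 := by
  rw [Matrix.trace_fin_two] at h1 ⊢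
  rw [Matrix.det_fin_two] at h2 ⊢
  simp only [Matrix.sub_apply, Matrix.one_apply_eq, Matrix.one_apply_ne, ne_eq, zero_ne_one,
    not_false_eq_true, one_ne_zero, sub_zero, Fin.isValue]
  constructor
  · linear_combination h1
  · linear_combination h2 - h1

/-- unipotent `u, h` with `tr (u h) = 2`: `(u - 1) (h - 1) = 0`. -/
theorem glue_unip_mul (u h : Matrix (Fin 2) (Fin 2) k) (hu1 : u.trace = 2) (hu2 : u.det = 1)
    (hh1 : h.trace = 2) (hh2 : h.det = 1) (huh : (u * h).trace = 2) :
    (u - 1) * (h - 1) = 0 := by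
  obtain ⟨a1, a2⟩ := glue_unip_sub_one u hu1 hu2
  obtain ⟨b1, b2⟩ := glue_unip_sub_one h hh1 hh2
  refine glue_nil_mul_nil _ _ a1 a2 b1 b2 ?_
  have e : (u - 1) * (h - 1) = u * h - u - h + 1 := by
    rw [sub_mul, mul_sub, mul_sub, mul_one, one_mul, one_mul]
    abel
  rw [e, Matrix.trace_add, Matrix.trace_sub, Matrix.trace_sub, huh, hu1, hh1, Matrix.trace_one,
    Fintype.card_fin]
  norm_num

/-- the kernel of a nonzero `2 × 2` matrix killing `v ≠ 0` is the line `k v`. -/
theorem glue_ker_line (n : Matrix (Fin 2) (Fin 2) k) (hn : n ≠ 0) (v x : Fin 2 → k)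
    (hv0 : v ≠ 0) (hv : n *ᵥ v = 0) (hx : n *ᵥ x = 0) : ∃ c : k, x = c • v := by
  -- the determinant of `[v | x]` vanishes
  have hdet : v 0 * x 1 - v 1 * x 0 = 0 := by
    by_contra hne
    apply hn
    have hv0' := congrFun hv 0
    have hv1' := congrFun hv 1
    have hx0' := congrFun hx 0
    have hx1' := congrFun hx 1
    simp only [Matrix.mulVec, dotProduct, Fin.sum_univ_two, Pi.zero_apply] at hv0' hv1' hx0' hx1'
    have e00 : n 0 0 * (v 0 * x 1 - v 1 * x 0) = 0 := by
      linear_combination x 1 * hv0' - v 1 * hx0'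
    have e01 : n 0 1 * (v 0 * x 1 - v 1 * x 0) = 0 := by
      linear_combination v 0 * hx0' - x 0 * hv0'
    have e10 : n 1 0 * (v 0 * x 1 - v 1 * x 0) = 0 := by
      linear_combination x 1 * hv1' - v 1 * hx1'
    have e11 : n 1 1 * (v 0 * x 1 - v 1 * x 0) = 0 := by
      linear_combination v 0 * hx1' - x 0 * hv1'
    ext i j
    fin_cases i <;> fin_cases j
    · exact (mul_eq_zero.mp e00).resolve_right hne
    · exact (mul_eq_zero.mp e01).resolve_right hne
    · exact (mul_eq_zero.mp e10).resolve_right hne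
    · exact (mul_eq_zero.mp e11).resolve_right hne
  by_cases h0 : v 0 = 0
  · have h1 : v 1 ≠ 0 := by
      intro h1
      apply hv0
      ext i
      fin_cases i
      · exact h0
      · exact h1
    refine ⟨x 1 / v 1, ?_⟩
    ext i
    fin_cases i
    · simp only [Fin.zero_eta, Fin.isValue, Pi.smul_apply, smul_eq_mul]
      rw [h0, mul_zero]
      rw [h0, zero_mul, zero_sub, neg_eq_zero] at hdet
      exact (mul_eq_zero.mp hdet).resolve_left h1
    · simp only [Fin.mk_one, Fin.isValue, Pi.smul_apply, smul_eq_mul]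
      field_simp
  · refine ⟨x 0 / v 0, ?_⟩
    ext i
    fin_cases i
    · simp only [Fin.zero_eta, Fin.isValue, Pi.smul_apply, smul_eq_mul]
      field_simp
    · simp only [Fin.mk_one, Fin.isValue, Pi.smul_apply, smul_eq_mul]
      field_simp
      linear_combination hdet

/-- an eigenvalue of a `2 × 2` matrix is a root of `X² - tr X + det`. -/
theorem glue_eigen_quadratic (g : Matrix (Fin 2) (Fin 2) k) (v : Fin 2 → k) (hv0 : v ≠ 0)
    (α : k) (hv : g *ᵥ v = α • v) : α ^ 2 - g.trace * α + g.det = 0 := by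
  rw [Matrix.trace_fin_two, Matrix.det_fin_two]
  have h0 := congrFun hv 0
  have h1 := congrFun hv 1
  simp only [Matrix.mulVec, dotProduct, Fin.sum_univ_two, Pi.smul_apply, smul_eq_mul] at h0 h1
  by_cases hz : v 0 = 0
  · have h1' : v 1 ≠ 0 := by
      intro h1'
      apply hv0
      ext i
      fin_cases i
      · exact hz
      · exact h1'
    rw [hz, mul_zero, zero_add, mul_zero] at h0
    rw [hz, mul_zero, zero_add] at h1
    have e1 : g 0 1 = 0 := (mul_eq_zero.mp h0).resolve_right h1'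
    have e2 : g 1 1 = α := mul_right_cancel₀ h1' h1
    rw [e1, e2]
    ring
  · have key : (α ^ 2 - (g 0 0 + g 1 1) * α + (g 0 0 * g 1 1 - g 0 1 * g 1 0)) * v 0 = 0 := by
      linear_combination (g 1 1 - α) * h0 - g 0 1 * h1
    exact (mul_eq_zero.mp key).resolve_right hz

/-- Cayley-Hamilton for `2 × 2` matrices. -/
theorem glue_cayley (g : Matrix (Fin 2) (Fin 2) k) :
    g * g = g.trace • g - g.det • (1 : Matrix (Fin 2) (Fin 2) k) := by
  rw [Matrix.trace_fin_two, Matrix.det_fin_two]
  ext i j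
  fin_cases i <;> fin_cases j <;>
    simp [Matrix.mul_apply, Fin.sum_univ_two] <;> ring

/-- the traces of the powers satisfy the Newton recursion. -/
theorem glue_trace_pow_succ_succ (g : Matrix (Fin 2) (Fin 2) k) (j : ℕ) :
    (g ^ (j + 2)).trace = g.trace * (g ^ (j + 1)).trace - g.det * (g ^ j).trace := by
  have e : g ^ (j + 2) = g.trace • g ^ (j + 1) - g.det • g ^ j := by
    rw [pow_succ, pow_succ, mul_assoc, glue_cayley g, mul_sub, Matrix.mul_smul, Matrix.mul_smul,
      mul_one, ← pow_succ]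
  rw [e, Matrix.trace_sub, Matrix.trace_smul, Matrix.trace_smul, smul_eq_mul, smul_eq_mul]

/-- trace and determinant of the powers are determined by trace and determinant. -/
theorem glue_trace_det_pow (g g' : Matrix (Fin 2) (Fin 2) k) (ht : g.trace = g'.trace)
    (hd : g.det = g'.det) (j : ℕ) :
    (g ^ j).trace = (g' ^ j).trace ∧ (g ^ j).det = (g' ^ j).det := by
  refine ⟨?_, by rw [Matrix.det_pow, Matrix.det_pow, hd]⟩
  induction j using Nat.strong_induction_on with
  | _ j ih =>
    match j, ih with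
    | 0, _ => simp
    | 1, _ => simpa using ht
    | (j + 2), ih =>
      rw [glue_trace_pow_succ_succ, glue_trace_pow_succ_succ, ih (j + 1) (by omega),
        ih j (by omega), ht, hd]

end Fermat.Agent.S48WGlue
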