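/-
S48 wall (W), block G-23, part GLUE (helper55): from the Frobenius elements to all of `G_ℚ`.

`glue_cheb`: two homomorphisms `r, r' : G_ℚ →* GL₂(k)` factoring through finite levels, with the
same trace and determinant at the Frobenius elements of all primes outside a finite set, have the
same trace and determinant everywhere (Frobenius density theorem `F3.frobDensityLite` + the fact
that trace and determinant of a power are determined by trace and determinant).
-/
import Mathlib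
import Fermat.Agent.S48.W.G.P23.Glue.Unip
import Fermat.Agent.F3.FrobDensityLiteFinal

set_option autoImplicit false

namespace Fermat.Agent.S48WGlue

open Matrix

local notation "Qb" => AlgebraicClosure ℚ
local notation "GK" => (AlgebraicClosure ℚ ≃ₐ[ℚ] AlgebraicClosure ℚ)

variable {k : Type} [Field k]

/-- two finite levels are contained in a finite NORMAL level. -/
theorem glue_exists_normal (L₁ L₂ : IntermediateField ℚ Qb) [FiniteDimensional ℚ L₁]
    [FiniteDimensional ℚ L₂] :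
    ∃ L : IntermediateField ℚ Qb, FiniteDimensional ℚ L ∧ Normal ℚ L ∧ L₁ ≤ L ∧ L₂ ≤ L := by
  have : Algebra.IsAlgebraic ℚ Qb := AlgebraicClosure.isAlgebraic ℚ
  have : IsAlgClosure ℚ Qb := ⟨inferInstance, inferInstance⟩
  have : Normal ℚ Qb := inferInstance
  refine ⟨IntermediateField.normalClosure ℚ (L₁ ⊔ L₂ : IntermediateField ℚ Qb) Qb,
    normalClosure.is_finiteDimensional ℚ _ Qb, normalClosure.normal ℚ _ Qb, ?_, ?_⟩
  · exact le_sup_left.trans (IntermediateField.le_normalClosure _)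
  · exact le_sup_right.trans (IntermediateField.le_normalClosure _)

/-- a homomorphism factoring through the level `L₀ ≤ L` takes the same value on two elements
which agree on `L`. -/
theorem glue_eq_of_agree {M : Type*} [Monoid M] (r : GK →* M) (L₀ L : IntermediateField ℚ Qb)
    (h₀ : ∀ σ : GK, (∀ x ∈ L₀, σ x = x) → r σ = 1) (hL : L₀ ≤ L) (s t : GK)
    (hst : ∀ x ∈ L, s x = t x) : r s = r t := by
  have h1 : r (t⁻¹ * s) = 1 := by
    apply h₀
    intro x hx
    rw [AlgEquiv.mul_apply, hst x (hL hx)]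
    exact t.symm_apply_apply x
  calc r s = r (t * (t⁻¹ * s)) := by rw [mul_inv_cancel_left]
    _ = r t := by rw [map_mul, h1, mul_one]

/-- **Frobenius density for pairs**. -/
theorem glue_cheb (r r' : GK →* GL (Fin 2) k) (hr : GaloisFactorsThroughFiniteLevel r)
    (hr' : GaloisFactorsThroughFiniteLevel r') (S : Finset ℕ)
    (h : ∀ p : ℕ, p.Prime → p ∉ S → ∀ A : ValuationSubring Qb, A.LiesOverPrime p →
      ∀ τ : GK, A.IsFrobeniusAt τ p →
        ((r τ : GL (Fin 2) k) : Matrix (Fin 2) (Fin 2) k).trace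
          = ((r' τ : GL (Fin 2) k) : Matrix (Fin 2) (Fin 2) k).trace ∧
        ((r τ : GL (Fin 2) k) : Matrix (Fin 2) (Fin 2) k).det
          = ((r' τ : GL (Fin 2) k) : Matrix (Fin 2) (Fin 2) k).det) (σ : GK) :
    ((r σ : GL (Fin 2) k) : Matrix (Fin 2) (Fin 2) k).trace
        = ((r' σ : GL (Fin 2) k) : Matrix (Fin 2) (Fin 2) k).trace ∧
      ((r σ : GL (Fin 2) k) : Matrix (Fin 2) (Fin 2) k).det
        = ((r' σ : GL (Fin 2) k) : Matrix (Fin 2) (Fin 2) k).det := by
  obtain ⟨L₁, hL₁, h₁⟩ := hr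
  obtain ⟨L₂, hL₂, h₂⟩ := hr'
  obtain ⟨L, hLfd, hLn, hle₁, hle₂⟩ := glue_exists_normal L₁ L₂
  obtain ⟨p, A, τ, a, j, hp, hpS, hA, hτ, hτa, hσa⟩ :=
    Fermat.Agent.F3.frobDensityLite L hLfd hLn σ S
  obtain ⟨e1, e2⟩ := h p hp hpS A hA τ hτ
  -- `r σ = (r τ) ^ j`
  have key : ∀ (ρ : GK →* GL (Fin 2) k) (L₀ : IntermediateField ℚ Qb),
      (∀ s : GK, (∀ x ∈ L₀, s x = x) → ρ s = 1) → L₀ ≤ L →
      ((ρ σ : GL (Fin 2) k) : Matrix (Fin 2) (Fin 2) k)
        = ((ρ τ : GL (Fin 2) k) : Matrix (Fin 2) (Fin 2) k) ^ j := by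
    intro ρ L₀ h₀ hle
    have hA1 : ρ τ = ρ (σ ^ a) := glue_eq_of_agree ρ L₀ L h₀ hle τ (σ ^ a) hτa
    have hA2 : ρ (σ ^ (a * j)) = ρ σ := glue_eq_of_agree ρ L₀ L h₀ hle (σ ^ (a * j)) σ hσa
    rw [← hA2, hA1, ← Units.val_pow_eq_pow_val, ← map_pow, ← pow_mul]
  rw [key r L₁ h₁ hle₁, key r' L₂ h₂ hle₂]
  exact glue_trace_det_pow _ _ e1 e2 j

end Fermat.Agent.S48WGlue
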