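/-
S48 wall (W), block G-23, part GLUE (helper55): the algebraic gluing lemma (Mathlib only).

`glue_split`: two homomorphisms `r, r' : G →* GL₂(k)` with the same trace and determinant
everywhere.  Then there is `r'' : G →* GL₂(k)` with the same trace and determinant, which is
trivial wherever `r` OR `r'` is trivial.

Proof: `r (ker r')` consists of unipotent matrices.  If it is trivial, `r'' = r`.  Otherwise it
fixes pointwise a unique line `k v₀`, which is `G`-stable (`ker r'` is normal); `r''` is the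
diagonal representation `(α, det r / α)`, `α` the character of `G` on the line.
-/
import Mathlib
import Fermat.Agent.S48.W.G.P23.Glue.Unip

set_option autoImplicit false

namespace Fermat.Agent.S48WGlue

open Matrix

variable {k : Type*} [Field k] {G : Type*} [Group G]

/-- the diagonal homomorphism `(a, b) : G →* GL₂(k)`. -/
noncomputable def glueDiag (a b : G →* kˣ) : G →* GL (Fin 2) k :=
  (Units.map ((Matrix.diagonalRingHom (Fin 2) k : (Fin 2 → k) →+* Matrix (Fin 2) (Fin 2) k) :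
      (Fin 2 → k) →* Matrix (Fin 2) (Fin 2) k)).comp
    ((MulEquiv.piUnits (M := fun _ : Fin 2 => k)).symm.toMonoidHom.comp
      (MonoidHom.pi (fun i : Fin 2 => if i = 0 then a else b)))

theorem coe_glueDiag (a b : G →* kˣ) (σ : G) :
    ((glueDiag a b σ : GL (Fin 2) k) : Matrix (Fin 2) (Fin 2) k)
      = Matrix.diagonal (fun i : Fin 2 => if i = 0 then (a σ : k) else (b σ : k)) := by
  show Matrix.diagonal _ = _
  congr 1
  ext i
  fin_cases i <;> rfl

theorem trace_glueDiag (a b : G →* kˣ) (σ : G) :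
    ((glueDiag a b σ : GL (Fin 2) k) : Matrix (Fin 2) (Fin 2) k).trace = (a σ : k) + (b σ : k) := by
  rw [coe_glueDiag, Matrix.trace_fin_two]
  simp

theorem det_glueDiag (a b : G →* kˣ) (σ : G) :
    ((glueDiag a b σ : GL (Fin 2) k) : Matrix (Fin 2) (Fin 2) k).det = (a σ : k) * (b σ : k) := by
  rw [coe_glueDiag, Matrix.det_fin_two]
  simp

theorem glueDiag_eq_one (a b : G →* kˣ) (σ : G) (ha : a σ = 1) (hb : b σ = 1) :
    glueDiag a b σ = 1 := by
  apply Units.ext
  rw [coe_glueDiag, ha, hb]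
  ext i j
  fin_cases i <;> fin_cases j <;> simp

/-- a nonzero matrix moves some vector. -/
theorem glue_exists_mulVec_ne (n : Matrix (Fin 2) (Fin 2) k) (hn : n ≠ 0) :
    ∃ w : Fin 2 → k, n *ᵥ w ≠ 0 := by
  by_contra h
  push Not at h
  apply hn
  ext i j
  have := congrFun (h (Pi.single j 1)) i
  rw [Matrix.mulVec_single_one] at this
  simpa using this

/-- **algebraic gluing**. -/
theorem glue_split (r r' : G →* GL (Fin 2) k)
    (ht : ∀ σ, ((r σ : GL (Fin 2) k) : Matrix (Fin 2) (Fin 2) k).trace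
      = ((r' σ : GL (Fin 2) k) : Matrix (Fin 2) (Fin 2) k).trace)
    (hd : ∀ σ, ((r σ : GL (Fin 2) k) : Matrix (Fin 2) (Fin 2) k).det
      = ((r' σ : GL (Fin 2) k) : Matrix (Fin 2) (Fin 2) k).det) :
    ∃ r'' : G →* GL (Fin 2) k,
      (∀ σ, ((r'' σ : GL (Fin 2) k) : Matrix (Fin 2) (Fin 2) k).trace
        = ((r σ : GL (Fin 2) k) : Matrix (Fin 2) (Fin 2) k).trace) ∧
      (∀ σ, ((r'' σ : GL (Fin 2) k) : Matrix (Fin 2) (Fin 2) k).det
        = ((r σ : GL (Fin 2) k) : Matrix (Fin 2) (Fin 2) k).det) ∧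
      (∀ σ, r σ = 1 → r'' σ = 1) ∧ (∀ σ, r' σ = 1 → r'' σ = 1) := by
  classical
  by_cases hA : ∀ σ, r' σ = 1 → r σ = 1
  · exact ⟨r, fun _ => rfl, fun _ => rfl, fun _ h => h, hA⟩
  push Not at hA
  obtain ⟨σ₀, hσ₀, hne⟩ := hA
  -- unipotence on `ker r'`
  have hun : ∀ σ, r' σ = 1 → ((r σ : GL (Fin 2) k) : Matrix (Fin 2) (Fin 2) k).trace = 2 ∧
      ((r σ : GL (Fin 2) k) : Matrix (Fin 2) (Fin 2) k).det = 1 := by
    intro σ hσ
    rw [ht, hd, hσ]
    simp [Matrix.trace_one]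
  have hmulK : ∀ σ τ, r' σ = 1 → r' τ = 1 → r' (σ * τ) = 1 := by
    intro σ τ h1 h2
    rw [map_mul, h1, h2, one_mul]
  have hconjK : ∀ γ σ, r' σ = 1 → r' (γ⁻¹ * σ * γ) = 1 := by
    intro γ σ h1
    rw [map_mul, map_mul, h1, mul_one, ← map_mul, inv_mul_cancel, map_one]
  set h₀ : Matrix (Fin 2) (Fin 2) k := ((r σ₀ : GL (Fin 2) k) : Matrix (Fin 2) (Fin 2) k) with hh₀
  have hn0 : h₀ - 1 ≠ 0 := by
    intro h
    apply hne
    apply Units.ext
    rw [Units.val_one]
    exact sub_eq_zero.mp h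
  -- the key: `(r σ - 1) (h₀ - 1) = 0` for `σ ∈ ker r'`
  have hkey : ∀ σ, r' σ = 1 →
      (((r σ : GL (Fin 2) k) : Matrix (Fin 2) (Fin 2) k) - 1) * (h₀ - 1) = 0 := by
    intro σ hσ
    refine glue_unip_mul _ _ (hun σ hσ).1 (hun σ hσ).2 (hun σ₀ hσ₀).1 (hun σ₀ hσ₀).2 ?_
    have := (hun (σ * σ₀) (hmulK σ σ₀ hσ hσ₀)).1
    rwa [map_mul, Units.val_mul] at this
  obtain ⟨w, hw⟩ := glue_exists_mulVec_ne (h₀ - 1) hn0
  set v₀ : Fin 2 → k := (h₀ - 1) *ᵥ w with hv₀
  have hfix : ∀ σ, r' σ = 1 →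
      ((r σ : GL (Fin 2) k) : Matrix (Fin 2) (Fin 2) k) *ᵥ v₀ = v₀ := by
    intro σ hσ
    have h1 : (((r σ : GL (Fin 2) k) : Matrix (Fin 2) (Fin 2) k) - 1) *ᵥ v₀ = 0 := by
      rw [hv₀, Matrix.mulVec_mulVec, hkey σ hσ, Matrix.zero_mulVec]
    rw [Matrix.sub_mulVec, Matrix.one_mulVec, sub_eq_zero] at h1
    exact h1
  have hnv : (h₀ - 1) *ᵥ v₀ = 0 := by
    have := hfix σ₀ hσ₀
    rw [Matrix.sub_mulVec, Matrix.one_mulVec, sub_eq_zero]
    exact this
  -- the line is stable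
  have hstab : ∀ γ : G, ∃ c : k,
      ((r γ : GL (Fin 2) k) : Matrix (Fin 2) (Fin 2) k) *ᵥ v₀ = c • v₀ := by
    intro γ
    refine glue_ker_line (h₀ - 1) hn0 v₀ _ hw hnv ?_
    have hc : h₀ * ((r γ : GL (Fin 2) k) : Matrix (Fin 2) (Fin 2) k)
        = ((r γ : GL (Fin 2) k) : Matrix (Fin 2) (Fin 2) k)
          * ((r (γ⁻¹ * σ₀ * γ) : GL (Fin 2) k) : Matrix (Fin 2) (Fin 2) k) := by
      rw [hh₀, ← Units.val_mul, ← Units.val_mul, ← map_mul, ← map_mul]
      congr 2
      group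
    rw [Matrix.mulVec_mulVec, sub_mul, one_mul, hc, Matrix.sub_mulVec, ← Matrix.mulVec_mulVec,
      hfix _ (hconjK γ σ₀ hσ₀), sub_self]
  choose α hα using hstab
  have huniq : ∀ c c' : k, c • v₀ = c' • v₀ → c = c' := by
    intro c c' h
    by_contra hcc
    apply hw
    have : (c - c') • v₀ = 0 := by rw [sub_smul, h, sub_self]
    rcases smul_eq_zero.mp this with h1 | h1
    · exact absurd (sub_eq_zero.mp h1) hcc
    · exact h1
  have hα1 : α 1 = 1 := by
    apply huniq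
    rw [← hα 1, map_one, Units.val_one, Matrix.one_mulVec, one_smul]
  have hαmul : ∀ γ δ, α (γ * δ) = α γ * α δ := by
    intro γ δ
    apply huniq
    rw [← hα (γ * δ), map_mul, Units.val_mul, ← Matrix.mulVec_mulVec, hα δ, Matrix.mulVec_smul,
      hα γ, smul_smul, mul_comm]
  let αm : G →* k := { toFun := α, map_one' := hα1, map_mul' := hαmul }
  let αh : G →* kˣ := αm.toHomUnits
  have hαh : ∀ γ, ((αh γ : kˣ) : k) = α γ := fun γ => rfl
  let δh : G →* kˣ := (Matrix.GeneralLinearGroup.det).comp r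
  have hδh : ∀ γ, ((δh γ : kˣ) : k)
      = ((r γ : GL (Fin 2) k) : Matrix (Fin 2) (Fin 2) k).det := fun γ => rfl
  let βh : G →* kˣ := δh / αh
  have hβ : ∀ γ, ((βh γ : kˣ) : k) * α γ
      = ((r γ : GL (Fin 2) k) : Matrix (Fin 2) (Fin 2) k).det := by
    intro γ
    rw [← hδh γ, ← hαh γ, ← Units.val_mul]
    congr 1
    show (δh γ / αh γ) * αh γ = δh γ
    rw [div_mul_cancel]
  have hαne : ∀ γ, α γ ≠ 0 := fun γ => by
    rw [← hαh γ]
    exact Units.ne_zero _
  have hquad : ∀ γ, α γ ^ 2 - ((r γ : GL (Fin 2) k) : Matrix (Fin 2) (Fin 2) k).trace * α γ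
      + ((r γ : GL (Fin 2) k) : Matrix (Fin 2) (Fin 2) k).det = 0 := fun γ =>
    glue_eigen_quadratic _ v₀ hw (α γ) (hα γ)
  refine ⟨glueDiag αh βh, ?_, ?_, ?_, ?_⟩
  · intro γ
    rw [trace_glueDiag, hαh]
    have h1 := hquad γ
    rw [← hβ γ] at h1
    have h2 : (α γ + ((βh γ : kˣ) : k)
        - ((r γ : GL (Fin 2) k) : Matrix (Fin 2) (Fin 2) k).trace) * α γ = 0 := by
      linear_combination h1
    have h3 := (mul_eq_zero.mp h2).resolve_right (hαne γ)
    linear_combination h3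
  · intro γ
    rw [det_glueDiag, hαh, mul_comm, hβ]
  · intro σ hσ
    have ha : αh σ = 1 := by
      apply Units.ext
      rw [hαh, Units.val_one]
      apply huniq
      rw [← hα σ, hσ, Units.val_one, Matrix.one_mulVec, one_smul]
    have hdl : δh σ = 1 := by
      show Matrix.GeneralLinearGroup.det (r σ) = 1
      rw [hσ, map_one]
    refine glueDiag_eq_one _ _ σ ha ?_
    show δh σ / αh σ = 1
    rw [ha, hdl, div_one]
  · intro σ hσ
    have ha : αh σ = 1 := by
      apply Units.ext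
      rw [hαh, Units.val_one]
      apply huniq
      rw [← hα σ, hfix σ hσ, one_smul]
    have hdl : δh σ = 1 := by
      apply Units.ext
      rw [hδh, Units.val_one]
      exact (hun σ hσ).2
    refine glueDiag_eq_one _ _ σ ha ?_
    show δh σ / αh σ = 1
    rw [ha, hdl, div_one]

end Fermat.Agent.S48WGlue
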