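/-
S48 wall (W), block G-23, part GLUE (helper55): gluing of residual representations.

The primes `p = 2, 3` need an auxiliary level (`4 ∣ M` for `p = 3`, `9 ∣ M` for `p = 2`) for the
good reduction of `X₁(M)` at `p`.  Instead of transferring between function fields, we glue the
residual representations of the two levels `4 M` and `9 M`:

* `glue_residual`        : two residual representations with the same characteristic polynomials
                           at the Frobenius elements of almost all primes ⟹ a residual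
                           representation with the same characteristic polynomials EVERYWHERE,
                           trivial wherever one of the two is trivial;
* `LiftStatement`        : the level lift `ModEigen M ⟶ ModEigen (r M)` (seat LIFT);
* `residualOneAt_glue`   : `ResidualOneAt (4 M) ℓ → ResidualOneAt (9 M) ℓ → ResidualOneAt M ℓ`;
* `wallStatementFrom_of_residualAt23`, `wallStatementFrom_of_at23` : the wall from the interface
  propositions at the levels `M'` with `4 ∣ M'` or `9 ∣ M'` only.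
-/
import Mathlib
import Fermat.Agent.S48.W.R.AsmAt
import Fermat.Agent.S48.Bnd.Rep
import Fermat.Agent.S48.W.G.P23.Glue.Split
import Fermat.Agent.S48.W.G.P23.Glue.Cheb

set_option autoImplicit false
set_option linter.unusedSectionVars false

noncomputable section

namespace Fermat.Agent.S48WGlue

open Matrix Polynomial Fermat.Agent.S48W Fermat.Agent.S48.Bnd

local notation "Qb" => AlgebraicClosure ℚ
local notation "GK" => (AlgebraicClosure ℚ ≃ₐ[ℚ] AlgebraicClosure ℚ)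
local notation "Zb" => integralClosure ℤ ℂ

variable {k : Type} [Field k]

theorem glue_toGL_factors (ρ : ResidualGaloisRep k) (b : Module.Basis (Fin 2) k ρ.V) :
    GaloisFactorsThroughFiniteLevel (toGL ρ b) := by
  obtain ⟨L, hL, h⟩ := ρ.factorsThroughFiniteLevel
  exact ⟨L, hL, fun σ hσ => toGL_eq_one_of ρ b (h σ hσ)⟩

/-- **gluing of residual representations**. -/
theorem glue_residual (ρ ρ' : ResidualGaloisRep k) (S : Finset ℕ)
    (h : ∀ p : ℕ, p.Prime → p ∉ S → ∀ A : ValuationSubring Qb, A.LiesOverPrime p →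
      ∀ τ : GK, A.IsFrobeniusAt τ p →
        LinearMap.charpoly (ρ.ρ τ) = LinearMap.charpoly (ρ'.ρ τ)) :
    ∃ ρ'' : ResidualGaloisRep k,
      (∀ σ, LinearMap.charpoly (ρ''.ρ σ) = LinearMap.charpoly (ρ.ρ σ)) ∧
      (∀ σ, LinearMap.charpoly (ρ''.ρ σ) = LinearMap.charpoly (ρ'.ρ σ)) ∧
      (∀ σ, ρ.ρ σ = 1 → ρ''.ρ σ = 1) ∧ (∀ σ, ρ'.ρ σ = 1 → ρ''.ρ σ = 1) := by
  obtain ⟨b⟩ := exists_basis ρ
  obtain ⟨b'⟩ := exists_basis ρ'
  have hr := glue_toGL_factors ρ b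
  have hr' := glue_toGL_factors ρ' b'
  have hall := glue_cheb (toGL ρ b) (toGL ρ' b') hr hr' S (by
    intro p hp hpS A hA τ hτ
    have := h p hp hpS A hA τ hτ
    rw [charpoly_eq_toGL ρ b, charpoly_eq_toGL ρ' b'] at this
    exact quad_inj this)
  obtain ⟨r'', h1, h2, h3, h4⟩ := glue_split (toGL ρ b) (toGL ρ' b')
    (fun σ => (hall σ).1) (fun σ => (hall σ).2)
  have hr'' : GaloisFactorsThroughFiniteLevel r'' := by
    obtain ⟨L, hL, hL'⟩ := hr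
    exact ⟨L, hL, fun σ hσ => h3 σ (hL' σ hσ)⟩
  refine ⟨ofGL r'' hr'', ?_, ?_, ?_, ?_⟩
  · intro σ
    rw [charpoly_ofGL, charpoly_eq_toGL ρ b, h1, h2]
  · intro σ
    rw [charpoly_ofGL, charpoly_eq_toGL ρ' b', h1, h2, (hall σ).1, (hall σ).2]
  · intro σ hσ
    exact ofGL_ρ_eq_one_of r'' hr'' (h3 σ (toGL_eq_one_of ρ b hσ))
  · intro σ hσ
    exact ofGL_ρ_eq_one_of r'' hr'' (h4 σ (toGL_eq_one_of ρ' b' hσ))

/-- **seat LIFT**: the level lift of a mod-`φ` eigenvector. -/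
def LiftStatement : Prop :=
  ∀ (M r : ℕ) [NeZero M] [NeZero (r * M)] (k : Type) [Field k] (φ : Zb →+* k)
    (e : ModEigen M k φ),
    ∃ e' : ModEigen (r * M) k φ,
      (∀ p : Nat.Primes, e'.t p = e.t p) ∧
      ∀ (p : ℕ) (hpM : Nat.Coprime p M) (hpM' : Nat.Coprime p (r * M)),
        e'.χ (ZMod.unitOfCoprime p hpM') = e.χ (ZMod.unitOfCoprime p hpM)

/-- **GLUE**: the residual representation at level `M` from the levels `4 M` and `9 M`. -/
theorem residualOneAt_glue (hL : LiftStatement) (M : ℕ) [NeZero M] [NeZero (4 * M)]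
    [NeZero (9 * M)] (ℓ : ℕ) (hℓ : ℓ.Prime)
    (h4 : ResidualOneAt (4 * M) ℓ) (h9 : ResidualOneAt (9 * M) ℓ) : ResidualOneAt M ℓ := by
  intro k _ _ φ e
  obtain ⟨e4, ht4, hχ4⟩ := hL M 4 k φ e
  obtain ⟨e9, ht9, hχ9⟩ := hL M 9 k φ e
  obtain ⟨ρ4, hu4, hc4⟩ := h4 k φ e4
  obtain ⟨ρ9, hu9, hc9⟩ := h9 k φ e9
  have hM0 : M ≠ 0 := NeZero.ne M
  have h6 : 6 * M * ℓ ≠ 0 := mul_ne_zero (mul_ne_zero (by norm_num) hM0) hℓ.ne_zero
  -- the formula at level `4 M`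
  have hf4 : ∀ (p : ℕ) (hp : p.Prime) (hpM : Nat.Coprime p M), p ≠ 2 → p ≠ ℓ →
      ∀ A : ValuationSubring Qb, A.LiesOverPrime p → ∀ σ : GK, A.IsFrobeniusAt σ p →
        LinearMap.charpoly (ρ4.ρ σ) = X ^ 2 - C (e.t ⟨p, hp⟩) * X
          + C (((p : ℕ) : k) * φ (e.χ (ZMod.unitOfCoprime p hpM) : Zb)) := by
    intro p hp hpM hp2 hpℓ A hA σ hσ
    have hp4 : Nat.Coprime p 4 := by
      have : Nat.Coprime p 2 := (Nat.coprime_primes hp Nat.prime_two).mpr hp2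
      exact Nat.Coprime.pow_right 2 this
    have hpM' : Nat.Coprime p (4 * M) := Nat.Coprime.mul_right hp4 hpM
    have := hc4 ⟨p, hp⟩ hpM' hpℓ A hA σ hσ
    rw [this, ht4 ⟨p, hp⟩]
    have h2 := hχ4 p hpM hpM'
    simp only at h2 ⊢
    rw [h2]
  have hf9 : ∀ (p : ℕ) (hp : p.Prime) (hpM : Nat.Coprime p M), p ≠ 3 → p ≠ ℓ →
      ∀ A : ValuationSubring Qb, A.LiesOverPrime p → ∀ σ : GK, A.IsFrobeniusAt σ p →
        LinearMap.charpoly (ρ9.ρ σ) = X ^ 2 - C (e.t ⟨p, hp⟩) * X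
          + C (((p : ℕ) : k) * φ (e.χ (ZMod.unitOfCoprime p hpM) : Zb)) := by
    intro p hp hpM hp3 hpℓ A hA σ hσ
    have hp9 : Nat.Coprime p 9 := by
      have : Nat.Coprime p 3 := (Nat.coprime_primes hp Nat.prime_three).mpr hp3
      exact Nat.Coprime.pow_right 2 this
    have hpM' : Nat.Coprime p (9 * M) := Nat.Coprime.mul_right hp9 hpM
    have := hc9 ⟨p, hp⟩ hpM' hpℓ A hA σ hσ
    rw [this, ht9 ⟨p, hp⟩]
    have h2 := hχ9 p hpM hpM'
    simp only at h2 ⊢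
    rw [h2]
  obtain ⟨ρ, hρ4, hρ9, hone4, hone9⟩ := glue_residual ρ4 ρ9 (6 * M * ℓ).primeFactors (by
    intro p hp hpS A hA τ hτ
    have hnd : ¬ p ∣ 6 * M * ℓ := fun hd => hpS (Nat.mem_primeFactors.mpr ⟨hp, hd, h6⟩)
    have hpM : Nat.Coprime p M :=
      (Nat.Prime.coprime_iff_not_dvd hp).mpr fun hd => hnd ((hd.mul_left 6).mul_right ℓ)
    have hp2 : p ≠ 2 := by
      rintro rfl
      exact hnd (((show 2 ∣ 6 by norm_num).mul_right M).mul_right ℓ)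
    have hp3 : p ≠ 3 := by
      rintro rfl
      exact hnd (((show 3 ∣ 6 by norm_num).mul_right M).mul_right ℓ)
    have hpℓ : p ≠ ℓ := by
      rintro rfl
      exact hnd (dvd_mul_left _ _)
    rw [hf4 p hp hpM hp2 hpℓ A hA τ hτ, hf9 p hp hpM hp3 hpℓ A hA τ hτ])
  refine ⟨ρ, ?_, ?_⟩
  · intro p hp hpMℓ A hA σ hσ
    by_cases hp2 : p = 2
    · -- use level `9 M`
      refine hone9 σ (hu9 p hp ?_ A hA σ hσ)
      intro hd
      rw [mul_assoc] at hd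
      rcases (Nat.Prime.dvd_mul hp).mp hd with h | h
      · rw [hp2] at h
        norm_num at h
      · exact hpMℓ h
    · refine hone4 σ (hu4 p hp ?_ A hA σ hσ)
      intro hd
      rw [mul_assoc] at hd
      rcases (Nat.Prime.dvd_mul hp).mp hd with h | h
      · apply hp2
        have : p ∣ 2 ^ 2 := by simpa using h
        exact (Nat.prime_dvd_prime_iff_eq hp Nat.prime_two).mp (hp.dvd_of_dvd_pow this)
      · exact hpMℓ h
  · intro p hpM hpℓ A hA σ hσ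
    by_cases hp2 : (p : ℕ) = 2
    · have hp3 : (p : ℕ) ≠ 3 := by rw [hp2]; norm_num
      exact (hρ9 σ).trans (hf9 p p.2 hpM hp3 hpℓ A hA σ hσ)
    · exact (hρ4 σ).trans (hf4 p p.2 hpM hp2 hpℓ A hA σ hσ)

/-- **W-WIRE with gluing**: the wall for `ℓ ≥ ℓ₀` from `ProductEigen` and the residual
representations at the pairs `(M', ℓ)` with `ℓ₀ ≤ ℓ`, `ℓ ∣ M'` and (`4 ∣ M'` or `9 ∣ M'`). -/
theorem wallStatementFrom_of_residualAt23 (hL : LiftStatement) (ℓ₀ : ℕ) (hP : ProductEigen)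
    (hR : ∀ (M : ℕ) [NeZero M] (ℓ : ℕ), ℓ.Prime → ℓ₀ ≤ ℓ → ℓ ∣ M → (4 ∣ M ∨ 9 ∣ M) →
      ResidualOneAt M ℓ) :
    WallStatementFrom ℓ₀ :=
  wallStatementFrom_of_residualAt ℓ₀ hP fun M _ ℓ hℓ hℓ₀ hℓM => by
    have : NeZero (4 * M) := ⟨mul_ne_zero (by norm_num) (NeZero.ne M)⟩
    have : NeZero (9 * M) := ⟨mul_ne_zero (by norm_num) (NeZero.ne M)⟩
    exact residualOneAt_glue hL M ℓ hℓ
      (hR (4 * M) ℓ hℓ hℓ₀ (hℓM.mul_left 4) (Or.inl (dvd_mul_right 4 M)))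
      (hR (9 * M) ℓ hℓ hℓ₀ (hℓM.mul_left 9) (Or.inr (dvd_mul_right 9 M)))

/-- **W-WIRE with gluing**: the wall for `ℓ ≥ ℓ₀` from `ProductEigen` and the interface
propositions of blocks G, H, A at the pairs `(M', ℓ)` with `ℓ₀ ≤ ℓ`, `ℓ ∣ M'` and
(`4 ∣ M'` or `9 ∣ M'`): at such a level every prime `p ∤ M' ℓ` is `≥ 5`, or `p = 3` with
`4 ∣ M'`, or `p = 2` with `9 ∣ M'`. -/
theorem wallStatementFrom_of_at23 (hL : LiftStatement) (ℓ₀ : ℕ) (hP : ProductEigen)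
    (hU : ∀ (M : ℕ) [NeZero M] (ℓ : ℕ), ℓ.Prime → ℓ₀ ≤ ℓ → ℓ ∣ M → (4 ∣ M ∨ 9 ∣ M) →
      TorsionUnramifiedOneAt M ℓ)
    (hQ : ∀ (M : ℕ) [NeZero M] (ℓ : ℕ), ℓ.Prime → ℓ₀ ≤ ℓ → ℓ ∣ M → (4 ∣ M ∨ 9 ∣ M) →
      TorsionFrobQuadraticOneAt M ℓ)
    (hC : ∀ (M : ℕ) [NeZero M], ℓ₀ ≤ M → HeckeGaloisCommOne M)
    (hE : ∀ (M : ℕ) [NeZero M] (ℓ : ℕ), ℓ.Prime → ℓ₀ ≤ ℓ → ℓ ∣ M → EigenclassOneAt M ℓ) :
    WallStatementFrom ℓ₀ :=
  wallStatementFrom_of_residualAt23 hL ℓ₀ hP fun M _ ℓ hℓ hℓ₀ hℓM h49 =>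
    Fermat.Agent.S48WR.residualOneAt_of_interfaces M ℓ hℓ (hU M ℓ hℓ hℓ₀ hℓM h49)
      (hQ M ℓ hℓ hℓ₀ hℓM h49)
      (hC M (hℓ₀.trans (Nat.le_of_dvd (Nat.pos_of_ne_zero (NeZero.ne M)) hℓM)))
      (hE M ℓ hℓ hℓ₀ hℓM)

end Fermat.Agent.S48WGlue
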