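/-
S48 wall (W), block G-23, part GLUE, seat LIFT (helper55): the level lift of a mod-`φ`
eigenvector, `ModEigen M k φ ⟶ ModEigen (r M) k φ` (same form, same `q`-coefficients, same
eigenvalues, character composed with the reduction `(ℤ/rM)ˣ → (ℤ/M)ˣ`).

* `liftStatement : LiftStatement`;
* `residualOneAt_glue'`, `wallStatementFrom_of_residualAt23'`, `wallStatementFrom_of_at23'` :
  the gluing theorems of `Glue/Main.lean` without the hypothesis `LiftStatement`.
-/
import Mathlib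
import Fermat.Agent.S48.W.G.P23.Glue.Main
import Fermat.Agent.S48.W.P.Product

set_option autoImplicit false
set_option linter.unusedSectionVars false

noncomputable section

namespace Fermat.Agent.S48WGlue

open Fermat.Agent.S48W CongruenceSubgroup
open scoped MatrixGroups ModularForm

local notation "Zb" => integralClosure ℤ ℂ

/-- `Γ₀(M') ≤ Γ₀(M)` for `M ∣ M'`. -/
theorem lift_Gamma0_le_of_dvd {M M' : ℕ} (h : M ∣ M') : Gamma0 M' ≤ Gamma0 M := by
  intro A hA
  rw [Gamma0_mem] at hA ⊢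
  have h1 := congrArg (ZMod.castHom h (ZMod M)) hA
  simpa using h1

/-- the reduction of a unit which is the class of an integer. -/
theorem lift_unitsMap_eq {M M' : ℕ} (h : M ∣ M') (d : (ZMod M')ˣ) (n : ℤ)
    (hd : (d : ZMod M') = (n : ZMod M')) :
    ((ZMod.unitsMap h d : (ZMod M)ˣ) : ZMod M) = (n : ZMod M) := by
  rw [ZMod.unitsMap_def, Units.coe_map]
  have h1 := congrArg (ZMod.castHom h (ZMod M)) hd
  simpa using h1

theorem lift_unitsMap_unitOfCoprime {M M' : ℕ} (h : M ∣ M') (p : ℕ) (hpM : Nat.Coprime p M)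
    (hpM' : Nat.Coprime p M') :
    ZMod.unitsMap h (ZMod.unitOfCoprime p hpM') = ZMod.unitOfCoprime p hpM := by
  apply Units.ext
  rw [ZMod.unitsMap_def, Units.coe_map, ZMod.coe_unitOfCoprime, ZMod.coe_unitOfCoprime]
  simp

/-- **seat LIFT**. -/
theorem liftStatement : LiftStatement := by
  intro M r _ _ k _ φ e
  have hdvd : M ∣ r * M := Dvd.intro_left r rfl
  refine ⟨{ g := p3_restrictCusp (p3_Gamma1_map_le hdvd) e.g
            χ := e.χ.comp (ZMod.unitsMap hdvd)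
            neb := ?_
            c := e.c
            hc := e.hc
            ne := e.ne
            t := e.t
            eig := ?_ }, fun _ => rfl, ?_⟩
  · intro γ hγ d hd z
    have := e.neb γ (lift_Gamma0_le_of_dvd hdvd hγ) (ZMod.unitsMap hdvd d)
      (lift_unitsMap_eq hdvd d (γ 1 1) hd) z
    exact this
  · intro p hpM' n
    have hpM : Nat.Coprime (p : ℕ) M := Nat.Coprime.coprime_dvd_right hdvd hpM'
    have := e.eig p hpM n
    rw [MonoidHom.comp_apply, lift_unitsMap_unitOfCoprime hdvd p hpM hpM']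
    exact this
  · intro p hpM hpM'
    show e.χ (ZMod.unitsMap hdvd (ZMod.unitOfCoprime p hpM')) = _
    rw [lift_unitsMap_unitOfCoprime hdvd p hpM hpM']

/-- **GLUE**: the residual representation at level `M` from the levels `4 M` and `9 M`. -/
theorem residualOneAt_glue' (M : ℕ) [NeZero M] [NeZero (4 * M)] [NeZero (9 * M)] (ℓ : ℕ)
    (hℓ : ℓ.Prime) (h4 : ResidualOneAt (4 * M) ℓ) (h9 : ResidualOneAt (9 * M) ℓ) :
    ResidualOneAt M ℓ :=
  residualOneAt_glue liftStatement M ℓ hℓ h4 h9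

/-- **W-WIRE with gluing**, from the residual representations at the levels `M'` with `4 ∣ M'`
or `9 ∣ M'`. -/
theorem wallStatementFrom_of_residualAt23' (ℓ₀ : ℕ) (hP : ProductEigen)
    (hR : ∀ (M : ℕ) [NeZero M] (ℓ : ℕ), ℓ.Prime → ℓ₀ ≤ ℓ → ℓ ∣ M → (4 ∣ M ∨ 9 ∣ M) →
      ResidualOneAt M ℓ) :
    WallStatementFrom ℓ₀ :=
  wallStatementFrom_of_residualAt23 liftStatement ℓ₀ hP hR

/-- **W-WIRE with gluing**, from the interface propositions of blocks G, H, A at the levels `M'`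
with `4 ∣ M'` or `9 ∣ M'` (every prime `p ∤ M' ℓ` is then `≥ 5`, or `p = 3` with `4 ∣ M'`, or
`p = 2` with `9 ∣ M'`). -/
theorem wallStatementFrom_of_at23' (ℓ₀ : ℕ) (hP : ProductEigen)
    (hU : ∀ (M : ℕ) [NeZero M] (ℓ : ℕ), ℓ.Prime → ℓ₀ ≤ ℓ → ℓ ∣ M → (4 ∣ M ∨ 9 ∣ M) →
      TorsionUnramifiedOneAt M ℓ)
    (hQ : ∀ (M : ℕ) [NeZero M] (ℓ : ℕ), ℓ.Prime → ℓ₀ ≤ ℓ → ℓ ∣ M → (4 ∣ M ∨ 9 ∣ M) →
      TorsionFrobQuadraticOneAt M ℓ)
    (hC : ∀ (M : ℕ) [NeZero M], ℓ₀ ≤ M → HeckeGaloisCommOne M)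
    (hE : ∀ (M : ℕ) [NeZero M] (ℓ : ℕ), ℓ.Prime → ℓ₀ ≤ ℓ → ℓ ∣ M → EigenclassOneAt M ℓ) :
    WallStatementFrom ℓ₀ :=
  wallStatementFrom_of_at23 liftStatement ℓ₀ hP hU hQ hC hE

end Fermat.Agent.S48WGlue
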